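import Fermat.Agent.SSR.Tau2

/-!
# Residual structure at a supersingular prime
-/

set_option autoImplicit false
set_option linter.unusedSectionVars false

namespace Fermat.Agent.SSR

open Fermat.Agent.TW Fermat.Agent.CC Fermat.Agent.TW.NVal Matrix

variable {A : ValuationSubring Qb} {p : ℕ} {w : Qb → ℝ} {k : Type*} [Field k]
  {rb : GQ →* Mt k}

/-- the matrix with given columns -/
def col (v u : Fin 2 → k) : Mt k := !![v 0, u 0; v 1, u 1]

theorem det_col (v u : Fin 2 → k) : (col v u).det = dt v u := by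
  unfold col dt
  rw [Matrix.det_fin_two_of]
  ring

theorem mul_col (X : Mt k) {v u : Fin 2 → k} {a b c d : k} (h1 : X.mulVec v = a • v + c • u)
    (h2 : X.mulVec u = b • v + d • u) : X * col v u = col v u * !![a, b; c, d] := by
  have e10 := congrFun h1 0
  have e11 := congrFun h1 1
  have e20 := congrFun h2 0
  have e21 := congrFun h2 1
  simp only [Matrix.mulVec, dotProduct, Fin.sum_univ_two, Pi.add_apply, Pi.smul_apply,
    smul_eq_mul] at e10 e11 e20 e21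
  ext i j
  fin_cases i <;> fin_cases j <;>
    simp [col, Matrix.mul_apply, Fin.sum_univ_two] <;>
    first
    | linear_combination e10
    | linear_combination e11
    | linear_combination e20
    | linear_combination e21

theorem dt_mulVec (X : Mt k) (v u : Fin 2 → k) :
    dt (X.mulVec v) (X.mulVec u) = X.det * dt v u := by
  unfold dt
  rw [Matrix.det_fin_two]
  simp only [Matrix.mulVec, dotProduct, Fin.sum_univ_two]
  ring

theorem conj_col {X : Mt k} {v u : Fin 2 → k} (h : dt v u ≠ 0) {a b c d : k}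
    (h1 : X.mulVec v = a • v + c • u) (h2 : X.mulVec u = b • v + d • u) :
    (col v u)⁻¹ * X * col v u = !![a, b; c, d] := by
  have hdet : IsUnit (col v u).det := by rw [det_col]; exact isUnit_iff_ne_zero.2 h
  rw [Matrix.mul_assoc, mul_col X h1 h2, ← Matrix.mul_assoc, Matrix.nonsing_inv_mul _ hdet,
    Matrix.one_mul]

section

variable [Finite k] [CharP k p] (P : PL p A w)

include P in
/-- the possible levels -/
theorem level_cases (hp2 : p ≠ 2) {ζ : Qb} {x : GQ → ZMod p} (C : CY p ζ x) [hpf : Fact p.Prime]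
    {π : Qb} (hπ : π ^ (p ^ 2 - 1) = p) {ψ : GQ → kˣ}
    (hdet : ∀ s ∈ A.inertiaSubgroupIn ℚ, (ψ s : k) ^ (p + 1) = ((x s).val : k)) {m : ℕ}
    (hm1 : 1 ≤ m) (hm2 : m ≤ p + 1) (τ : fixK k p →+* IsLocalRing.ResidueField A)
    (hal : ∀ s ∈ A.inertiaSubgroupIn ℚ, (ψ s : k) ∈ fixK k p)
    (hτ : ∀ s (hs : s ∈ A.inertiaSubgroupIn ℚ), τ ⟨ψ s, hal s hs⟩ = rsd A (s π / π) ^ m) :
    m = 1 ∨ m = p := by
  have hnd : ¬ p ∣ p ^ 2 - 1 := not_dvd_sq_sub
  have hp3 : 3 ≤ p := by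
    have := hpf.out.two_le
    omega
  have hfac : p ^ 2 - 1 = (p + 1) * (p - 1) := by
    have := Nat.sq_sub_sq p 1
    rwa [one_pow] at this
  have hπ0 : π ≠ 0 := P.tame_ne hnd hπ
  have hπ' : (π ^ (p + 1)) ^ (p - 1) = p := by rw [← pow_mul, ← hfac, hπ]
  have hθ : ∀ s ∈ A.inertiaSubgroupIn ℚ, Bl w 0 (s π / π) := fun s hs =>
    bl_div_self P (inertia_le_decomposition A hs) hπ0
  -- comparison of determinants
  have h1 : ∀ s ∈ A.inertiaSubgroupIn ℚ,
      rsd A (s π / π) ^ (m * (p + 1)) = rsd A (s π / π) ^ (p + 1) := by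
    intro s hs
    have h2 := theta_eq_x P C hπ' hs
    rw [map_pow, ← div_pow, P.rsd_pow (hθ s hs)] at h2
    rw [h2, pow_mul, ← hτ s hs, ← map_pow]
    have h3 : (⟨ψ s, hal s hs⟩ : fixK k p) ^ (p + 1) = (((x s).val : ℕ) : fixK k p) := by
      apply Subtype.ext
      change (ψ s : k) ^ (p + 1) = (((x s).val : ℕ) : fixK k p)
      rw [hdet s hs]
      push_cast
      rfl
    rw [h3, map_natCast]
  -- a generator
  have : NeZero (p ^ 2 - 1) := ⟨sq_sub_pos.ne'⟩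
  have : NeZero (((p ^ 2 - 1 : ℕ)) : Qb) := ⟨Nat.cast_ne_zero.2 sq_sub_pos.ne'⟩
  obtain ⟨ξ, hξ⟩ := HasEnoughRootsOfUnity.exists_primitiveRoot Qb (p ^ 2 - 1)
  obtain ⟨s, hs, hsπ⟩ := P.theta_surj hnd hπ hξ.pow_eq_one
  have hsξ : s π / π = ξ := by rw [hsπ, mul_div_cancel_right₀ _ hπ0]
  have h2 := h1 s hs
  have hbl := hθ s hs
  rw [hsξ] at h2 hbl
  have hξ0 : ξ ≠ 0 := hξ.ne_zero sq_sub_pos.ne'
  have hpow : ∀ n : ℕ, Bl w 0 (ξ ^ n) := fun n => by
    have := P.nv.pow hbl n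
    rwa [mul_zero] at this
  obtain ⟨n, hn⟩ := Nat.exists_eq_add_of_le hm1
  have h3 : ξ ^ (m * (p + 1)) = ξ ^ (p + 1) := by
    rw [← P.rsd_pow hbl, ← P.rsd_pow hbl, P.rsd_eq_iff (hpow _) (hpow _)] at h2
    exact P.te_unique hnd (by rw [← pow_mul, mul_comm, pow_mul, hξ.pow_eq_one, one_pow])
      (by rw [← pow_mul, mul_comm, pow_mul, hξ.pow_eq_one, one_pow]) h2
  have h4 : ξ ^ (n * (p + 1)) = 1 := by
    apply mul_left_cancel₀ (pow_ne_zero (p + 1) hξ0)
    rw [← pow_add, mul_one, ← h3, hn]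
    congr 1
    ring
  have h5 := hξ.dvd_of_pow_eq_one _ h4
  rw [hfac, mul_comm n, Nat.mul_dvd_mul_iff_left (by omega)] at h5
  obtain ⟨c, hc⟩ := h5
  have hnp : n ≤ p := by omega
  rcases Nat.lt_or_ge c 2 with hc2 | hc2
  · interval_cases c
    · left; omega
    · right; omega
  · exfalso
    have h6 : (p - 1) * 2 ≤ (p - 1) * c := Nat.mul_le_mul_left _ hc2
    omega

include P in
/-- **Residual structure at a supersingular prime.** -/
theorem ss_residual (hp2 : p ≠ 2) {ζ : Qb} {x : GQ → ZMod p} (C : CY p ζ x)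
    (rb : GQ →* Mt k) (hU : IsOpen (rb.ker : Set GQ)) (hdet : ∀ s, (rb s).det = ((x s).val : k))
    (hsplit : ∀ s, ∃ a b : k, (rb s).charpoly =
      (Polynomial.X - Polynomial.C a) * (Polynomial.X - Polynomial.C b))
    (hirr : ∀ v : Fin 2 → k, v ≠ 0 → ∃ g ∈ A.decompositionSubgroup ℚ, ∀ c : k,
      (rb g).mulVec v ≠ c • v)
    (hLH : HasLH A (actR' A rb)) {π : Qb} (hπ : π ^ (p ^ 2 - 1) = p) :
    ∃ (Q Q' : Mt k) (al : GQ → k) (K : Subfield k) (τ : K →+* IsLocalRing.ResidueField A)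
      (hal : ∀ s ∈ A.inertiaSubgroupIn ℚ, al s ∈ K),
      Q * Q' = 1 ∧ Nat.card K = p ^ 2 ∧
      (∀ s (hs : s ∈ A.inertiaSubgroupIn ℚ), τ ⟨al s, hal s hs⟩ = rsd A (s π / π)) ∧
      (∀ s ∈ A.inertiaSubgroupIn ℚ, Q' * rb s * Q = Matrix.diagonal ![al s, al s ^ p]) ∧
      (∀ φ, A.IsFrobeniusAt φ p → (Q' * rb φ * Q) 0 0 = 0 ∧ (Q' * rb φ * Q) 1 1 = 0) := by
  have hpf : Fact p.Prime := ⟨P.prime⟩
  obtain ⟨v, u, ψ₁, ψ₂, hdt, hψ, ⟨s₁, hs₁, hs₁ne⟩, hfrob, h21, h12⟩ :=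
    exists_lines P hU hsplit hirr hLH
  obtain ⟨H, hH⟩ := hLH
  have hv := dt_left hdt
  have hu := dt_right hdt
  have hψ2 : ∀ s ∈ A.inertiaSubgroupIn ℚ, (ψ₁ s ^ p) ^ p = ψ₁ s := fun s hs => by
    rw [← h21 s hs, ← h12 s hs]
  have hne : ψ₁ s₁ ^ p ≠ ψ₁ s₁ := by
    rw [← h21 s₁ hs₁]; exact hs₁ne.symm
  obtain ⟨m, hm1, hm2, hcard, τ, hal, hτ⟩ := exists_tau P hU hH hv (fun s hs => (hψ s hs).1) hψ2
    hs₁ hne hπ
  -- determinants
  have hdet' : ∀ s ∈ A.inertiaSubgroupIn ℚ, (ψ₁ s : k) ^ (p + 1) = ((x s).val : k) := by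
    intro s hs
    have h1 := dt_mulVec (rb s) v u
    rw [(hψ s hs).1, (hψ s hs).2, hdet] at h1
    have h2 : dt ((ψ₁ s : k) • v) ((ψ₂ s : k) • u) = ((ψ₁ s : k) * ψ₂ s) * dt v u := by
      unfold dt
      simp only [Pi.smul_apply, smul_eq_mul]
      ring
    rw [h2] at h1
    rw [← mul_right_cancel₀ hdt h1, h21 s hs, Units.val_pow_eq_pow_val, pow_succ, mul_comm]
  rcases level_cases P hp2 C hπ hdet' hm1 hm2 τ hal hτ with hm | hm
  · -- `m = 1`
    subst hm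
    have hunit : IsUnit (col v u).det := by rw [det_col]; exact isUnit_iff_ne_zero.2 hdt
    refine ⟨col v u, (col v u)⁻¹, fun s => ψ₁ s, fixK k p, τ, hal,
      Matrix.mul_nonsing_inv _ hunit, hcard, fun s hs => ?_, fun s hs => ?_, fun φ hφ => ?_⟩
    · rw [hτ s hs, pow_one]
    · rw [conj_col hdt (a := (ψ₁ s : k)) (b := 0) (c := 0) (d := (ψ₂ s : k))
        (by rw [zero_smul, add_zero]; exact (hψ s hs).1)
        (by rw [zero_smul, zero_add]; exact (hψ s hs).2), h21 s hs, Units.val_pow_eq_pow_val]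
      ext i j
      fin_cases i <;> fin_cases j <;> simp
    · obtain ⟨⟨c, hc⟩, ⟨d, hd⟩⟩ := hfrob φ hφ
      rw [conj_col hdt (a := 0) (b := d) (c := c) (d := 0)
        (by rw [zero_smul, zero_add]; exact hc) (by rw [zero_smul, add_zero]; exact hd)]
      exact ⟨rfl, rfl⟩
  · -- `m = p`
    have hdt' : dt u v ≠ 0 := by
      have : dt u v = - dt v u := by unfold dt; ring
      rw [this]
      exact neg_ne_zero.2 hdt
    have hunit : IsUnit (col u v).det := by rw [det_col]; exact isUnit_iff_ne_zero.2 hdt'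
    have hnd : ¬ p ∣ p ^ 2 - 1 := not_dvd_sq_sub
    have hπ0 : π ≠ 0 := P.tame_ne hnd hπ
    have hal2 : ∀ s ∈ A.inertiaSubgroupIn ℚ, (ψ₂ s : k) ∈ fixK k p := by
      intro s hs
      rw [h21 s hs, Units.val_pow_eq_pow_val]
      exact (fixK k p).pow_mem (hal s hs) p
    refine ⟨col u v, (col u v)⁻¹, fun s => ψ₂ s, fixK k p, τ, hal2,
      Matrix.mul_nonsing_inv _ hunit, hcard, fun s hs => ?_, fun s hs => ?_, fun φ hφ => ?_⟩
    · have h1 : (⟨ψ₂ s, hal2 s hs⟩ : fixK k p) = ⟨ψ₁ s, hal s hs⟩ ^ p := by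
        apply Subtype.ext
        change (ψ₂ s : k) = (ψ₁ s : k) ^ p
        rw [h21 s hs, Units.val_pow_eq_pow_val]
      have hbl := bl_div_self P (inertia_le_decomposition A hs) hπ0
      have h2 : rsd A (s π / π) ^ (p ^ 2 - 1) = 1 := by
        rw [← P.rsd_pow hbl, P.theta_pow hπ, P.rsd_one]
      rw [h1, map_pow, hτ s hs, hm, ← pow_mul, ← pow_two]
      have h3 : p ^ 2 = (p ^ 2 - 1) + 1 := (Nat.sub_add_cancel (Nat.one_le_pow _ _ P.prime.pos)).symm
      rw [h3, pow_succ, h2, one_mul]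
    · rw [conj_col hdt' (a := (ψ₂ s : k)) (b := 0) (c := 0) (d := (ψ₁ s : k))
        (by rw [zero_smul, add_zero]; exact (hψ s hs).2)
        (by rw [zero_smul, zero_add]; exact (hψ s hs).1)]
      have h1 : (ψ₁ s : k) = (ψ₂ s : k) ^ p := by
        conv_lhs => rw [h12 s hs]
        rw [Units.val_pow_eq_pow_val]
      rw [h1]
      ext i j
      fin_cases i <;> fin_cases j <;> simp
    · obtain ⟨⟨c, hc⟩, ⟨d, hd⟩⟩ := hfrob φ hφ
      rw [conj_col hdt' (a := 0) (b := c) (c := d) (d := 0)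
        (by rw [zero_smul, zero_add]; exact hd) (by rw [zero_smul, add_zero]; exact hc)]
      exact ⟨rfl, rfl⟩

end

end Fermat.Agent.SSR
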