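import Mathlib

/-!
# Linear algebra of `2 × 2` matrices
-/

set_option autoImplicit false

namespace Fermat.Agent.SSR

open Matrix Polynomial

variable {k : Type*} [Field k]

/-- determinant of two vectors -/
def dt (v u : Fin 2 → k) : k := v 0 * u 1 - v 1 * u 0

theorem exists_smul_of_dt {v u : Fin 2 → k} (hv : v ≠ 0) (h : dt v u = 0) : ∃ c : k, u = c • v := by
  have h' : v 0 * u 1 = v 1 * u 0 := sub_eq_zero.1 h
  by_cases h0 : v 0 = 0
  · have h1 : v 1 ≠ 0 := by
      intro h1
      apply hv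
      funext i
      fin_cases i
      · exact h0
      · exact h1
    rw [h0, zero_mul] at h'
    have h2 : u 0 = 0 := (mul_eq_zero.1 h'.symm).resolve_left h1
    refine ⟨u 1 / v 1, ?_⟩
    funext i
    fin_cases i
    · change u 0 = u 1 / v 1 * v 0
      rw [h2, h0, mul_zero]
    · change u 1 = u 1 / v 1 * v 1
      rw [div_mul_cancel₀ _ h1]
  · refine ⟨u 0 / v 0, ?_⟩
    funext i
    fin_cases i
    · change u 0 = u 0 / v 0 * v 0
      rw [div_mul_cancel₀ _ h0]
    · change u 1 = u 0 / v 0 * v 1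
      field_simp
      rw [mul_comm, h', mul_comm]

theorem dt_ne_of {v u : Fin 2 → k} (hv : v ≠ 0) (h : ∀ c : k, u ≠ c • v) : dt v u ≠ 0 :=
  fun h0 => by
    obtain ⟨c, hc⟩ := exists_smul_of_dt hv h0
    exact h c hc

/-- a matrix is determined by two independent vectors -/
theorem mat_ext {v u : Fin 2 → k} (h : dt v u ≠ 0) {X Y : Matrix (Fin 2) (Fin 2) k}
    (h1 : X.mulVec v = Y.mulVec v) (h2 : X.mulVec u = Y.mulVec u) : X = Y := by
  have key : ∀ i, (X i 0 - Y i 0) * dt v u = 0 ∧ (X i 1 - Y i 1) * dt v u = 0 := by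
    intro i
    have e1 := congrFun h1 i
    have e2 := congrFun h2 i
    simp only [Matrix.mulVec, dotProduct, Fin.sum_univ_two] at e1 e2
    unfold dt
    constructor
    · linear_combination u 1 * e1 - v 1 * e2
    · linear_combination v 0 * e2 - u 0 * e1
  ext i j
  have := key i
  fin_cases j
  · exact sub_eq_zero.1 ((mul_eq_zero.1 this.1).resolve_right h)
  · exact sub_eq_zero.1 ((mul_eq_zero.1 this.2).resolve_right h)

/-- existence of eigenvectors -/
theorem exists_eigen {X : Matrix (Fin 2) (Fin 2) k} {a b : k}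
    (h : X.charpoly = (Polynomial.X - C a) * (Polynomial.X - C b)) :
    ∃ v : Fin 2 → k, v ≠ 0 ∧ X.mulVec v = a • v := by
  have h1 : (Matrix.scalar (Fin 2) a - X).det = 0 := by
    have h2 := Matrix.eval_charpoly X a
    rw [h] at h2
    rw [← h2]
    simp
  obtain ⟨v, hv, hvx⟩ := Matrix.exists_mulVec_eq_zero_iff.2 h1
  refine ⟨v, hv, ?_⟩
  rw [Matrix.sub_mulVec, sub_eq_zero] at hvx
  rw [← hvx]
  simp

theorem exists_eigen' {X : Matrix (Fin 2) (Fin 2) k} {a b : k}
    (h : X.charpoly = (Polynomial.X - C a) * (Polynomial.X - C b)) :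
    ∃ v : Fin 2 → k, v ≠ 0 ∧ X.mulVec v = b • v :=
  exists_eigen (by rw [h, mul_comm])

theorem cayley {X : Matrix (Fin 2) (Fin 2) k} {a b : k}
    (h : X.charpoly = (Polynomial.X - C a) * (Polynomial.X - C b)) :
    (X - Matrix.scalar (Fin 2) a) * (X - Matrix.scalar (Fin 2) b) = 0 := by
  have h1 := Matrix.aeval_self_charpoly X
  rw [h, map_mul, map_sub, map_sub, aeval_X, aeval_C, aeval_C] at h1
  exact h1

/-- eigenvectors for distinct eigenvalues are independent -/
theorem dt_ne_of_eigen {X : Matrix (Fin 2) (Fin 2) k} {a b : k} (hab : a ≠ b) {v u : Fin 2 → k}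
    (hv : v ≠ 0) (hu : u ≠ 0) (h1 : X.mulVec v = a • v) (h2 : X.mulVec u = b • u) :
    dt v u ≠ 0 := by
  apply dt_ne_of hv
  intro c hc
  have hc0 : c ≠ 0 := by
    rintro rfl
    rw [zero_smul] at hc
    exact hu hc
  rw [hc, Matrix.mulVec_smul, h1, smul_smul, smul_smul] at h2
  apply hv
  have h3 : (c * (a - b)) • v = 0 := by
    rw [mul_sub, sub_smul, h2, mul_comm b c, sub_self]
  exact (smul_eq_zero.1 h3).resolve_left (mul_ne_zero hc0 (sub_ne_zero.2 hab))

end Fermat.Agent.SSR
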