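import Fermat.Agent.TW.LH4
import Fermat.Agent.SSR.Lin

/-!
# Wild inertia and Hopf orders
-/

set_option autoImplicit false
set_option linter.unusedSectionVars false

namespace Fermat.Agent.SSR

open Fermat.Agent.TW Fermat.Agent.CC Fermat.Agent.TW.NVal

variable {A : ValuationSubring Qb} {p : ℕ} {w : Qb → ℝ}

/-- wild inertia: the elements acting trivially on leading coefficients -/
def IsWild (A : ValuationSubring Qb) (s : GQ) : Prop :=
  s ∈ A.inertiaSubgroupIn ℚ ∧ ∀ y : Qb, y ≠ 0 → rsd A (s y / y) = 1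

theorem bl_div_self (P : PL p A w) {s : GQ} (hs : s ∈ A.decompositionSubgroup ℚ) {y : Qb}
    (hy : y ≠ 0) : Bl w 0 (s y / y) := by
  right
  rw [P.nv.w_div ((map_ne_zero s).2 hy) hy, P.nv.w_smul hs, sub_self]

/-- multiplicativity -/
theorem rsd_div_mul (P : PL p A w) {s t : GQ} (hs : s ∈ A.inertiaSubgroupIn ℚ)
    (ht : t ∈ A.inertiaSubgroupIn ℚ) {y : Qb} (hy : y ≠ 0) :
    rsd A ((s * t) y / y) = rsd A (s y / y) * rsd A (t y / y) := by
  have hsD := inertia_le_decomposition A hs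
  have htD := inertia_le_decomposition A ht
  have h1 : (s * t) y / y = s (t y / y) * (s y / y) := by
    have h0 : s y ≠ 0 := (map_ne_zero s).2 hy
    rw [AlgEquiv.mul_apply, map_div₀]
    field_simp
  rw [h1, P.rsd_mul ((Bl_smul P.nv hsD).2 (bl_div_self P htD hy)) (bl_div_self P hsD hy),
    P.rsd_inertia hs (bl_div_self P htD hy), mul_comm]

theorem rsd_div_one (P : PL p A w) {y : Qb} (hy : y ≠ 0) : rsd A ((1 : GQ) y / y) = 1 := by
  rw [AlgEquiv.one_apply, div_self hy, P.rsd_one]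

/-- commutators of inertia are wild -/
theorem isWild_comm (P : PL p A w) {s t : GQ} (hs : s ∈ A.inertiaSubgroupIn ℚ)
    (ht : t ∈ A.inertiaSubgroupIn ℚ) : IsWild A (s * t * s⁻¹ * t⁻¹) := by
  have hs' := inv_mem hs
  have ht' := inv_mem ht
  refine ⟨mul_mem (mul_mem (mul_mem hs ht) hs') ht', fun y hy => ?_⟩
  have h1 := rsd_div_mul P hs hs' hy
  have h2 := rsd_div_mul P ht ht' hy
  rw [mul_inv_cancel, rsd_div_one P hy] at h1 h2
  rw [rsd_div_mul P (mul_mem (mul_mem hs ht) hs') ht' hy, rsd_div_mul P (mul_mem hs ht) hs' hy,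
    rsd_div_mul P hs ht hy]
  linear_combination (-(rsd A (t y / y) * rsd A (t⁻¹ y / y))) * h1 - h2

/-- wild inertia is normal in the decomposition group -/
theorem isWild_conj (P : PL p A w) {g s : GQ} (hg : g ∈ A.decompositionSubgroup ℚ)
    (hs : IsWild A s) : IsWild A (g * s * g⁻¹) := by
  refine ⟨inertia_conj_mem hg hs.1, fun y hy => ?_⟩
  obtain ⟨z, hz⟩ : ∃ z, z = g⁻¹ y := ⟨_, rfl⟩
  have hz0 : z ≠ 0 := by rw [hz]; exact (map_ne_zero _).2 hy
  have hy' : y = g z := by rw [hz]; exact (g.apply_symm_apply y).symm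
  have h1 : (g * s * g⁻¹) y / y = g (s z / z) := by
    rw [AlgEquiv.mul_apply, AlgEquiv.mul_apply, ← hz, map_div₀, ← hy']
  have hsD := inertia_le_decomposition A hs.1
  have h2 := bl_div_self P hsD hz0
  have h3 := hs.2 z hz0
  rw [← P.rsd_one, P.rsd_eq_iff h2 P.nv.one] at h3
  rw [h1, ← P.rsd_one, P.rsd_eq_iff ((Bl_smul P.nv hg).2 h2) P.nv.one]
  have h4 : g (s z / z) - 1 = g (s z / z - 1) := by rw [map_sub, map_one]
  rw [h4]
  exact (Bs_smul P.nv hg).2 h3

theorem wild_sub (P : PL p A w) {s : GQ} (hs : IsWild A s) {r : ℝ} {y : Qb} (hy : Bl w r y) :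
    Bs w r (s y - y) := by
  by_cases hy0 : y = 0
  · left
    rw [hy0, map_zero, sub_self]
  have hsD := inertia_le_decomposition A hs.1
  have h3 := hs.2 y hy0
  rw [← P.rsd_one, P.rsd_eq_iff (bl_div_self P hsD hy0) P.nv.one] at h3
  have h1 : s y - y = y * (s y / y - 1) := by field_simp
  by_cases h0 : s y / y - 1 = 0
  · left
    rw [h1, h0, mul_zero]
  · right
    rw [h1, P.nv.w_mul hy0 h0]
    have h4 := hy.resolve_left hy0
    have h5 := h3.resolve_left h0
    linarith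

variable {M : Type*} [AddCommGroup M]
  {act : A.inertiaSubgroupIn ℚ →* AddMonoid.End M} {H : Subalgebra (RI A) (M → Qb)}

/-- wild inertia fixes a nonzero point -/
theorem exists_wild_fixed [Finite M] [Nontrivial M] (hH : LH A act H) (P : PL p A w) :
    ∃ z : M, z ≠ 0 ∧ ∀ σ : A.inertiaSubgroupIn ℚ, IsWild A σ → act σ z = z := by
  classical
  have : Fintype M := Fintype.ofFinite M
  have hex : ∀ z : M, ∃ r : ℝ, z ≠ 0 → TD w H r z ∧ ∃ φ ∈ H, φ z ≠ φ 0 ∧ w (φ z - φ 0) = r := by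
    intro z
    by_cases hz : z = 0
    · exact ⟨0, fun h => absurd hz h⟩
    · obtain ⟨r, hr⟩ := hH.exists_td P hz
      exact ⟨r, fun _ => hr⟩
  choose r hr using hex
  obtain ⟨z₁, hz₁⟩ := exists_ne (0 : M)
  obtain ⟨z, hz, hmax⟩ := Finset.exists_max_image (Finset.univ.filter fun z : M => z ≠ 0) r
    ⟨z₁, by simp [hz₁]⟩
  have hz0 : z ≠ 0 := (Finset.mem_filter.1 hz).2
  refine ⟨z, hz0, fun σ hσ => ?_⟩
  by_contra hne
  have hne' : act σ z - z ≠ 0 := sub_ne_zero.2 hne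
  have h1 : TDS w H (r z) (act σ z - z) := by
    refine TDS.of_trans hH P z fun φ hφ => ?_
    rw [add_sub_cancel, hH.equiv φ hφ]
    have h0 : φ 0 = (σ : GQ) (φ 0) := by rw [← hH.equiv φ hφ, map_zero]
    have h2 : (σ : GQ) (φ z) - φ z = (σ : GQ) (φ z - φ 0) - (φ z - φ 0) := by
      rw [map_sub, ← h0]
      ring
    rw [h2]
    exact wild_sub P hσ ((hr z hz0).1 φ hφ)
  obtain ⟨h2, φ, hφ, h3, h4⟩ := hr _ hne'
  have h5 := (h1 φ hφ).resolve_left (sub_ne_zero.2 h3)
  rw [h4] at h5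
  exact absurd (hmax _ (Finset.mem_filter.2 ⟨Finset.mem_univ _, hne'⟩)) (not_le.2 h5)

end Fermat.Agent.SSR
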