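import Fermat.Agent.TW.TameChar
import Fermat.Agent.TW.Trace
import Fermat.Agent.SSR.Wild

/-!
# The residual representation on a supersingular decomposition group: the two lines
-/

set_option autoImplicit false
set_option linter.unusedSectionVars false

namespace Fermat.Agent.SSR

open Fermat.Agent.TW Fermat.Agent.CC Fermat.Agent.TW.NVal Matrix

variable {A : ValuationSubring Qb} {p : ℕ} {w : Qb → ℝ} {k : Type*} [Field k]

/-- action of inertia on `k²` -/
noncomputable def actR' (A : ValuationSubring Qb) (rb : GQ →* Mt k) :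
    A.inertiaSubgroupIn ℚ →* AddMonoid.End (Fin 2 → k) where
  toFun σ := (Matrix.mulVecLin (rb σ)).toAddMonoidHom
  map_one' := by
    ext v : 1
    change (rb 1).mulVec v = v
    rw [map_one, Matrix.one_mulVec]
  map_mul' σ τ := by
    ext v : 1
    change (rb (σ * τ)).mulVec v = (rb σ).mulVec ((rb τ).mulVec v)
    rw [map_mul, Matrix.mulVec_mulVec]

theorem actR'_apply {rb : GQ →* Mt k} (σ : A.inertiaSubgroupIn ℚ) (v : Fin 2 → k) :
    actR' A rb σ v = (rb σ).mulVec v := rfl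

/-- irreducibility on the decomposition group -/
def Irr (A : ValuationSubring Qb) (rb : GQ →* Mt k) : Prop :=
  ∀ v : Fin 2 → k, v ≠ 0 → ∃ g ∈ A.decompositionSubgroup ℚ, ∀ c : k, (rb g).mulVec v ≠ c • v

theorem mulVec_mul (rb : GQ →* Mt k) (s t : GQ) (v : Fin 2 → k) :
    (rb (s * t)).mulVec v = (rb s).mulVec ((rb t).mulVec v) := by
  rw [map_mul, Matrix.mulVec_mulVec]

theorem rb_inv_mul (rb : GQ →* Mt k) (g : GQ) : rb g⁻¹ * rb g = 1 := by
  rw [← map_mul, inv_mul_cancel, map_one]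

theorem mulVec_inv (rb : GQ →* Mt k) (g : GQ) (v : Fin 2 → k) :
    (rb g⁻¹).mulVec ((rb g).mulVec v) = v := by
  rw [Matrix.mulVec_mulVec, rb_inv_mul, Matrix.one_mulVec]

theorem mulVec_ne (rb : GQ →* Mt k) (g : GQ) {v : Fin 2 → k} (hv : v ≠ 0) :
    (rb g).mulVec v ≠ 0 := by
  intro h
  apply hv
  rw [← mulVec_inv rb g v, h, Matrix.mulVec_zero]

variable {rb : GQ →* Mt k}

/-- wild inertia acts trivially -/
theorem wild_trivial [Finite k] (P : PL p A w) (hLH : HasLH A (actR' A rb)) (hirr : Irr A rb)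
    {s : GQ} (hs : IsWild A s) : rb s = 1 := by
  obtain ⟨H, hH⟩ := hLH
  obtain ⟨z, hz, hfix⟩ := exists_wild_fixed hH P
  have hfix' : ∀ t, IsWild A t → (rb t).mulVec z = z := fun t ht => hfix ⟨t, ht.1⟩ ht
  obtain ⟨g, hg, hgz⟩ := hirr z hz
  refine mat_ext (dt_ne_of hz hgz) ?_ ?_
  · rw [hfix' s hs, Matrix.one_mulVec]
  · rw [Matrix.one_mulVec, ← mulVec_mul]
    have h1 : s * g = g * (g⁻¹ * s * g⁻¹⁻¹) := by group
    rw [h1, mulVec_mul, hfix' _ (isWild_conj P (inv_mem hg) hs)]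

/-- inertia acts through an abelian group -/
theorem rb_comm [Finite k] (P : PL p A w) (hLH : HasLH A (actR' A rb)) (hirr : Irr A rb)
    {s t : GQ} (hs : s ∈ A.inertiaSubgroupIn ℚ) (ht : t ∈ A.inertiaSubgroupIn ℚ) :
    rb s * rb t = rb t * rb s := by
  have h1 := wild_trivial P hLH hirr (isWild_comm P hs ht)
  rw [← map_mul, ← map_mul]
  have h2 : s * t = (s * t * s⁻¹ * t⁻¹) * (t * s) := by group
  rw [h2, map_mul, h1, one_mul]

theorem mulVec_pow_eigen {X : Mt k} {v : Fin 2 → k} {c : k} (h : X.mulVec v = c • v) (n : ℕ) :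
    (X ^ n).mulVec v = c ^ n • v := by
  induction n with
  | zero => rw [pow_zero, pow_zero, Matrix.one_mulVec, one_smul]
  | succ n ih =>
    rw [pow_succ, ← Matrix.mulVec_mulVec, h, Matrix.mulVec_smul, ih, smul_smul, pow_succ, mul_comm]

/-- there are no elements of order `p` -/
theorem unip_trivial [Finite k] [CharP k p] (P : PL p A w) (hLH : HasLH A (actR' A rb))
    (hirr : Irr A rb) {s : GQ} (hs : s ∈ A.inertiaSubgroupIn ℚ) {n : ℕ}
    (hn : rb s ^ p ^ n = 1) : rb s = 1 := by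
  have hpf : Fact p.Prime := ⟨P.prime⟩
  by_contra hne
  have h1 : (rb s - 1) ^ p ^ n = 0 := by
    rw [sub_pow_char_pow_of_commute p n (Commute.one_right (rb s)), hn, one_pow, sub_self]
  have h2 : (rb s - 1).det = 0 := by
    have h3 := congrArg Matrix.det h1
    rw [Matrix.det_pow, Matrix.det_zero] at h3
    exact pow_eq_zero_iff (pow_ne_zero n P.prime.ne_zero) |>.1 h3
  obtain ⟨v, hv, hvx⟩ := Matrix.exists_mulVec_eq_zero_iff.2 h2
  rw [Matrix.sub_mulVec, Matrix.one_mulVec, sub_eq_zero] at hvx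
  -- vectors fixed by `rb s` are multiples of `v`
  have key : ∀ u : Fin 2 → k, (rb s).mulVec u = u → ∃ c : k, u = c • v := by
    intro u hu
    by_contra hno
    push Not at hno
    exact hne (mat_ext (dt_ne_of hv hno) (by rw [hvx, Matrix.one_mulVec])
      (by rw [hu, Matrix.one_mulVec]))
  obtain ⟨g, hg, hgv⟩ := hirr v hv
  obtain ⟨t, ht⟩ : ∃ t, t = g⁻¹ * s * g⁻¹⁻¹ := ⟨_, rfl⟩
  have htI : t ∈ A.inertiaSubgroupIn ℚ := by
    rw [ht]; exact inertia_conj_mem (inv_mem hg) hs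
  have hcomm := rb_comm P hLH hirr hs htI
  obtain ⟨c, hc⟩ := key ((rb t).mulVec v) (by
    rw [Matrix.mulVec_mulVec, hcomm, ← Matrix.mulVec_mulVec, hvx])
  have hc1 : c = 1 := by
    have h3 : rb t ^ p ^ n = 1 := by
      have h4 : t ^ p ^ n = g⁻¹ * s ^ p ^ n * g⁻¹⁻¹ := by rw [ht, conj_pow]
      rw [← map_pow, h4, map_mul, map_mul, map_pow, hn, mul_one, inv_inv, rb_inv_mul]
    have h5 := mulVec_pow_eigen hc (p ^ n)
    rw [h3, Matrix.one_mulVec] at h5
    have h6 : c ^ p ^ n = 1 := by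
      have h7 : (c ^ p ^ n - 1) • v = 0 := by rw [sub_smul, one_smul, ← h5, sub_self]
      exact sub_eq_zero.1 ((smul_eq_zero.1 h7).resolve_right hv)
    have h8 : (c - 1) ^ p ^ n = 0 := by
      rw [sub_pow_char_pow, h6, one_pow, sub_self]
    exact sub_eq_zero.1 (pow_eq_zero_iff (pow_ne_zero n P.prime.ne_zero) |>.1 h8)
  obtain ⟨d, hd⟩ := key ((rb g).mulVec v) (by
    rw [← mulVec_mul]
    have h1 : s * g = g * t := by rw [ht]; group
    rw [h1, mulVec_mul, hc, hc1, one_smul])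
  exact hgv d hd

/-- no common eigenvectors -/
theorem not_common (P : PL p A w) (hU : IsOpen (rb.ker : Set GQ)) (hirr : Irr A rb) {φ : GQ}
    (hφ : A.IsFrobeniusAt φ p) {v : Fin 2 → k} (hv : v ≠ 0) {a : k}
    (h1 : (rb φ).mulVec v = a • v)
    (h2 : ∀ σ ∈ A.inertiaSubgroupIn ℚ, ∃ c : k, (rb σ).mulVec v = c • v) : False := by
  obtain ⟨g, hg, hgv⟩ := hirr v hv
  obtain ⟨n, σ, hσ, h, hh, -, e⟩ := exists_dec P.prime P.lies hφ hg (V := rb.ker)
    inferInstance (lev_isOpen_iff.2 hU)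
  obtain ⟨c, hc⟩ := h2 σ hσ
  have hh' : rb h = 1 := hh
  apply hgv (c * a ^ n)
  rw [e, map_mul, hh', mul_one, map_mul, map_pow, ← Matrix.mulVec_mulVec, hc, Matrix.mulVec_smul,
    mulVec_pow_eigen h1, smul_smul]

end Fermat.Agent.SSR
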