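import Fermat.Agent.SSR.Lines

/-!
# The two lines
-/

set_option autoImplicit false
set_option linter.unusedSectionVars false

namespace Fermat.Agent.SSR

open Fermat.Agent.TW Fermat.Agent.CC Fermat.Agent.TW.NVal Matrix

variable {A : ValuationSubring Qb} {p : ℕ} {w : Qb → ℝ} {k : Type*} [Field k]
  {rb : GQ →* Mt k}

/-- coordinates with respect to two independent vectors -/
theorem exists_coord {v u : Fin 2 → k} (h : dt v u ≠ 0) (z : Fin 2 → k) :
    ∃ α β : k, z = α • v + β • u := by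
  refine ⟨(z 0 * u 1 - z 1 * u 0) / dt v u, (v 0 * z 1 - v 1 * z 0) / dt v u, ?_⟩
  have h' : v 0 * u 1 - v 1 * u 0 ≠ 0 := h
  funext i
  fin_cases i
  · change z 0 = (z 0 * u 1 - z 1 * u 0) / (v 0 * u 1 - v 1 * u 0) * v 0 +
      (v 0 * z 1 - v 1 * z 0) / (v 0 * u 1 - v 1 * u 0) * u 0
    rw [div_mul_eq_mul_div, div_mul_eq_mul_div, ← add_div, eq_div_iff h']
    ring
  · change z 1 = (z 0 * u 1 - z 1 * u 0) / (v 0 * u 1 - v 1 * u 0) * v 1 +
      (v 0 * z 1 - v 1 * z 0) / (v 0 * u 1 - v 1 * u 0) * u 1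
    rw [div_mul_eq_mul_div, div_mul_eq_mul_div, ← add_div, eq_div_iff h']
    ring

theorem coord_zero {v u : Fin 2 → k} (h : dt v u ≠ 0) {α β : k} (e : α • v + β • u = 0) :
    α = 0 ∧ β = 0 := by
  have e0 := congrFun e 0
  have e1 := congrFun e 1
  simp only [Pi.add_apply, Pi.smul_apply, smul_eq_mul, Pi.zero_apply] at e0 e1
  constructor
  · have : α * dt v u = 0 := by
      unfold dt
      linear_combination u 1 * e0 - u 0 * e1
    exact (mul_eq_zero.1 this).resolve_right h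
  · have : β * dt v u = 0 := by
      unfold dt
      linear_combination v 0 * e1 - v 1 * e0
    exact (mul_eq_zero.1 this).resolve_right h

theorem dt_left {v u : Fin 2 → k} (h : dt v u ≠ 0) : v ≠ 0 := by
  rintro rfl
  exact h (by unfold dt; simp)

theorem dt_right {v u : Fin 2 → k} (h : dt v u ≠ 0) : u ≠ 0 := by
  rintro rfl
  exact h (by unfold dt; simp)

section

variable [Finite k] [CharP k p] (P : PL p A w) (hU : IsOpen (rb.ker : Set GQ))
  (hsplit : ∀ s, ∃ a b : k, (rb s).charpoly =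
    (Polynomial.X - Polynomial.C a) * (Polynomial.X - Polynomial.C b))
  (hirr : Irr A rb) (hLH : HasLH A (actR' A rb))
include P hU hsplit hirr hLH

/-- an element of inertia with distinct eigenvalues -/
theorem exists_distinct : ∃ s ∈ A.inertiaSubgroupIn ℚ, ∃ (a b : k) (v u : Fin 2 → k), a ≠ b ∧
    v ≠ 0 ∧ u ≠ 0 ∧ (rb s).mulVec v = a • v ∧ (rb s).mulVec u = b • u := by
  classical
  have hpf : Fact p.Prime := ⟨P.prime⟩
  have := Fintype.ofFinite k
  -- a non scalar element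
  have hns : ∃ s ∈ A.inertiaSubgroupIn ℚ, ∀ c : k, rb s ≠ Matrix.scalar (Fin 2) c := by
    by_contra hno
    push Not at hno
    obtain ⟨φ, hφ⟩ := H05.exists_isFrobeniusAt P.prime P.lies
    obtain ⟨a, b, hab⟩ := hsplit φ
    obtain ⟨v, hv, hva⟩ := exists_eigen hab
    refine not_common P hU hirr hφ hv hva fun σ hσ => ?_
    obtain ⟨c, hc⟩ := hno σ hσ
    refine ⟨c, ?_⟩
    rw [hc]
    simp
  obtain ⟨s, hs, hsc⟩ := hns
  obtain ⟨a, b, hab⟩ := hsplit s
  obtain ⟨v, hv, hva⟩ := exists_eigen hab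
  obtain ⟨u, hu, hub⟩ := exists_eigen' hab
  refine ⟨s, hs, a, b, v, u, fun heq => ?_, hv, hu, hva, hub⟩
  subst heq
  obtain ⟨n, -, hn⟩ := FiniteField.card k p
  have hq : 2 ≤ p ^ (n : ℕ) := by
    calc 2 ≤ p := P.prime.two_le
      _ = p ^ 1 := (pow_one p).symm
      _ ≤ p ^ (n : ℕ) := Nat.pow_le_pow_right P.prime.pos n.2
  have hac : a ^ p ^ (n : ℕ) = a := by
    rw [← hn]; exact FiniteField.pow_card a
  have ha0 : a ≠ 0 := by
    rintro rfl
    rw [zero_smul] at hva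
    exact mulVec_ne rb s hv hva
  have hcay := cayley hab
  -- `(rb s)^q = a`
  have h1 : rb s ^ p ^ (n : ℕ) = Matrix.scalar (Fin 2) a := by
    have hc : Commute (rb s) (Matrix.scalar (Fin 2) a) := (Matrix.scalar_commute a
      (fun r => Commute.all a r) (rb s)).symm
    have h2 : (rb s - Matrix.scalar (Fin 2) a) ^ p ^ (n : ℕ) = 0 := by
      obtain ⟨m, hm⟩ := Nat.exists_eq_add_of_le hq
      rw [hm, pow_add, pow_two, hcay, zero_mul]
    have h3 : Matrix.scalar (Fin 2) a ^ p ^ (n : ℕ) = Matrix.scalar (Fin 2) a := by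
      rw [← map_pow, hac]
    rw [sub_pow_char_pow_of_commute p n hc, h3, sub_eq_zero] at h2
    exact h2
  have h2 : rb (s ^ (p ^ (n : ℕ) - 1)) = 1 := by
    apply unip_trivial P hLH hirr (pow_mem hs _) (n := n)
    rw [map_pow, ← pow_mul, mul_comm, pow_mul, h1, ← map_pow]
    have h3 : a ^ (p ^ (n : ℕ) - 1) = 1 := by
      rw [← hn]; exact FiniteField.pow_card_sub_one_eq_one a ha0
    rw [h3, map_one]
  apply hsc a
  rw [← h1]
  have h3 : p ^ (n : ℕ) = (p ^ (n : ℕ) - 1) + 1 := by omega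
  rw [h3, pow_succ, ← map_pow, h2, one_mul]

/-- **the two lines** -/
theorem exists_lines : ∃ (v u : Fin 2 → k) (ψ₁ ψ₂ : GQ → kˣ), dt v u ≠ 0 ∧
    (∀ s ∈ A.inertiaSubgroupIn ℚ, (rb s).mulVec v = (ψ₁ s : k) • v ∧
      (rb s).mulVec u = (ψ₂ s : k) • u) ∧
    (∃ s ∈ A.inertiaSubgroupIn ℚ, ψ₁ s ≠ ψ₂ s) ∧
    (∀ φ, A.IsFrobeniusAt φ p → (∃ c : k, (rb φ).mulVec v = c • u) ∧
      (∃ c : k, (rb φ).mulVec u = c • v)) ∧
    (∀ s ∈ A.inertiaSubgroupIn ℚ, ψ₂ s = ψ₁ s ^ p) ∧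
    (∀ s ∈ A.inertiaSubgroupIn ℚ, ψ₁ s = ψ₂ s ^ p) := by
  classical
  obtain ⟨s₁, hs₁, a, b, v, u, hab, hv, hu, hva, hub⟩ := exists_distinct P hU hsplit hirr hLH
  have hdt := dt_ne_of_eigen hab hv hu hva hub
  have hnsc : ∀ z : Fin 2 → k, (rb s₁).mulVec z = a • z → ∃ c : k, z = c • v := by
    intro z hz
    obtain ⟨α, β, rfl⟩ := exists_coord hdt z
    rw [Matrix.mulVec_add, Matrix.mulVec_smul, Matrix.mulVec_smul, hva, hub] at hz
    have h1 : (0 : k) • v + (β * (b - a)) • u = 0 := by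
      rw [zero_smul, zero_add, mul_sub, sub_smul, sub_eq_zero]
      have h2 : α • a • v = a • α • v := smul_comm _ _ _
      rw [smul_add, h2] at hz
      have h3 := add_left_cancel hz
      rw [← smul_smul, h3, smul_smul, mul_comm]
    have h4 := (mul_eq_zero.1 (coord_zero hdt h1).2).resolve_right (sub_ne_zero.2 hab.symm)
    exact ⟨α, by rw [h4, zero_smul, add_zero]⟩
  have hnsc' : ∀ z : Fin 2 → k, (rb s₁).mulVec z = b • z → ∃ c : k, z = c • u := by
    intro z hz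
    obtain ⟨α, β, rfl⟩ := exists_coord hdt z
    rw [Matrix.mulVec_add, Matrix.mulVec_smul, Matrix.mulVec_smul, hva, hub] at hz
    have h1 : (α * (a - b)) • v + (0 : k) • u = 0 := by
      rw [zero_smul, add_zero, mul_sub, sub_smul, sub_eq_zero]
      have h2 : β • b • u = b • β • u := smul_comm _ _ _
      rw [smul_add, h2] at hz
      have h3 := add_right_cancel hz
      rw [← smul_smul, h3, smul_smul, mul_comm]
    have h4 := (mul_eq_zero.1 (coord_zero hdt h1).1).resolve_right (sub_ne_zero.2 hab)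
    exact ⟨β, by rw [h4, zero_smul, zero_add]⟩
  -- inertia preserves the lines
  have hline : ∀ s : GQ, ∃ c : kˣ, s ∈ A.inertiaSubgroupIn ℚ →
      (rb s).mulVec v = (c : k) • v := by
    intro s
    by_cases hs : s ∈ A.inertiaSubgroupIn ℚ
    · obtain ⟨c, hc⟩ := hnsc ((rb s).mulVec v) (by
        rw [Matrix.mulVec_mulVec, rb_comm P hLH hirr hs₁ hs, ← Matrix.mulVec_mulVec, hva,
          Matrix.mulVec_smul])
      have hc0 : c ≠ 0 := by
        rintro rfl
        rw [zero_smul] at hc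
        exact mulVec_ne rb s hv hc
      exact ⟨Units.mk0 c hc0, fun _ => hc⟩
    · exact ⟨1, fun h => absurd h hs⟩
  have hline' : ∀ s : GQ, ∃ c : kˣ, s ∈ A.inertiaSubgroupIn ℚ →
      (rb s).mulVec u = (c : k) • u := by
    intro s
    by_cases hs : s ∈ A.inertiaSubgroupIn ℚ
    · obtain ⟨c, hc⟩ := hnsc' ((rb s).mulVec u) (by
        rw [Matrix.mulVec_mulVec, rb_comm P hLH hirr hs₁ hs, ← Matrix.mulVec_mulVec, hub,
          Matrix.mulVec_smul])
      have hc0 : c ≠ 0 := by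
        rintro rfl
        rw [zero_smul] at hc
        exact mulVec_ne rb s hu hc
      exact ⟨Units.mk0 c hc0, fun _ => hc⟩
    · exact ⟨1, fun h => absurd h hs⟩
  choose ψ₁ hψ₁ using hline
  choose ψ₂ hψ₂ using hline'
  -- Frobenius elements swap the lines
  have hfrob : ∀ φ, A.IsFrobeniusAt φ p → (∃ c : k, (rb φ).mulVec v = c • u) ∧
      (∃ c : k, (rb φ).mulVec u = c • v) := by
    intro φ hφ
    have hφD : φ ∈ A.decompositionSubgroup ℚ := hφ.mem_decompositionSubgroup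
    obtain ⟨s', hs'⟩ : ∃ s', s' = φ⁻¹ * s₁ * φ⁻¹⁻¹ := ⟨_, rfl⟩
    have hs'I : s' ∈ A.inertiaSubgroupIn ℚ := by
      rw [hs']; exact inertia_conj_mem (inv_mem hφD) hs₁
    have hsφ : s₁ * φ = φ * s' := by rw [hs']; group
    -- images of eigenvectors are eigenvectors
    have key : ∀ (z : Fin 2 → k) (c : k), (rb s').mulVec z = c • z →
        (rb s₁).mulVec ((rb φ).mulVec z) = c • (rb φ).mulVec z := by
      intro z c hz
      rw [← mulVec_mul, hsφ, mulVec_mul, hz, Matrix.mulVec_smul]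
    have hdich : ∀ (z : Fin 2 → k) (c : k), z ≠ 0 → (rb s').mulVec z = c • z →
        (∃ d : k, (rb φ).mulVec z = d • v) ∨ (∃ d : k, (rb φ).mulVec z = d • u) := by
      intro z c hz0 hz
      have h1 := key z c hz
      obtain ⟨α, β, hαβ⟩ := exists_coord hdt ((rb φ).mulVec z)
      rw [hαβ, Matrix.mulVec_add, Matrix.mulVec_smul, Matrix.mulVec_smul, hva, hub] at h1
      have h2 : (α * (a - c)) • v + (β * (b - c)) • u = 0 := by
        have h3 : (α * (a - c)) • v + (β * (b - c)) • u =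
            (α • a • v + β • b • u) - c • (α • v + β • u) := by
          simp only [smul_smul, smul_add, mul_sub, sub_smul, mul_comm c]
          abel
        rw [h3, h1, sub_self]
      obtain ⟨h4, h5⟩ := coord_zero hdt h2
      by_cases hα : α = 0
      · right
        exact ⟨β, by rw [hαβ, hα, zero_smul, zero_add]⟩
      · left
        have h6 : a = c := sub_eq_zero.1 ((mul_eq_zero.1 h4).resolve_left hα)
        have h7 : β = 0 := (mul_eq_zero.1 h5).resolve_right (by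
          rw [← h6]; exact sub_ne_zero.2 hab.symm)
        exact ⟨α, by rw [hαβ, h7, zero_smul, add_zero]⟩
    constructor
    · rcases hdich v _ hv (hψ₁ s' hs'I) with ⟨d, hd⟩ | h
      · exact (not_common P hU hirr hφ hv hd fun σ hσ => ⟨_, hψ₁ σ hσ⟩).elim
      · exact h
    · rcases hdich u _ hu (hψ₂ s' hs'I) with h | ⟨d, hd⟩
      · exact h
      · exact (not_common P hU hirr hφ hu hd fun σ hσ => ⟨_, hψ₂ σ hσ⟩).elim
  -- characters
  have hmul₁ : ∀ σ ∈ A.inertiaSubgroupIn ℚ, ∀ τ ∈ A.inertiaSubgroupIn ℚ,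
      ψ₁ (σ * τ) = ψ₁ σ * ψ₁ τ := by
    intro σ hσ τ hτ
    have h1 := hψ₁ (σ * τ) (mul_mem hσ hτ)
    rw [mulVec_mul, hψ₁ τ hτ, Matrix.mulVec_smul, hψ₁ σ hσ, smul_smul] at h1
    have h2 : ((ψ₁ τ : k) * ψ₁ σ - ψ₁ (σ * τ)) • v = 0 := by rw [sub_smul, h1, sub_self]
    have h3 := (smul_eq_zero.1 h2).resolve_right hv
    apply Units.ext
    rw [Units.val_mul, mul_comm]
    exact (sub_eq_zero.1 h3).symm
  have hmul₂ : ∀ σ ∈ A.inertiaSubgroupIn ℚ, ∀ τ ∈ A.inertiaSubgroupIn ℚ,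
      ψ₂ (σ * τ) = ψ₂ σ * ψ₂ τ := by
    intro σ hσ τ hτ
    have h1 := hψ₂ (σ * τ) (mul_mem hσ hτ)
    rw [mulVec_mul, hψ₂ τ hτ, Matrix.mulVec_smul, hψ₂ σ hσ, smul_smul] at h1
    have h2 : ((ψ₂ τ : k) * ψ₂ σ - ψ₂ (σ * τ)) • u = 0 := by rw [sub_smul, h1, sub_self]
    have h3 := (smul_eq_zero.1 h2).resolve_right hu
    apply Units.ext
    rw [Units.val_mul, mul_comm]
    exact (sub_eq_zero.1 h3).symm
  have hker₁ : ∀ σ ∈ A.inertiaSubgroupIn ℚ, σ ∈ rb.ker → ψ₁ σ = 1 := by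
    intro σ hσ hσU
    have h1 := hψ₁ σ hσ
    rw [show rb σ = 1 from hσU, Matrix.one_mulVec] at h1
    have h2 : ((ψ₁ σ : k) - 1) • v = 0 := by rw [sub_smul, one_smul, ← h1, sub_self]
    exact Units.ext (sub_eq_zero.1 ((smul_eq_zero.1 h2).resolve_right hv))
  have hker₂ : ∀ σ ∈ A.inertiaSubgroupIn ℚ, σ ∈ rb.ker → ψ₂ σ = 1 := by
    intro σ hσ hσU
    have h1 := hψ₂ σ hσ
    rw [show rb σ = 1 from hσU, Matrix.one_mulVec] at h1
    have h2 : ((ψ₂ σ : k) - 1) • u = 0 := by rw [sub_smul, one_smul, ← h1, sub_self]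
    exact Units.ext (sub_eq_zero.1 ((smul_eq_zero.1 h2).resolve_right hu))
  obtain ⟨φ, hφ⟩ := H05.exists_isFrobeniusAt P.prime P.lies
  obtain ⟨⟨β, hβ⟩, ⟨γ, hγ⟩⟩ := hfrob φ hφ
  have hβ0 : β ≠ 0 := by
    rintro rfl
    rw [zero_smul] at hβ
    exact mulVec_ne rb φ hv hβ
  have hγ0 : γ ≠ 0 := by
    rintro rfl
    rw [zero_smul] at hγ
    exact mulVec_ne rb φ hu hγ
  have hconj₁ : ∀ s ∈ A.inertiaSubgroupIn ℚ, ψ₁ (φ * s * φ⁻¹) = ψ₂ s := by
    intro s hs
    have h1 := hψ₁ _ (inertia_conj_mem hφ.mem_decompositionSubgroup hs)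
    have h2 : (rb (φ * s * φ⁻¹)).mulVec ((rb φ).mulVec u) = (ψ₂ s : k) • (rb φ).mulVec u := by
      rw [← mulVec_mul, inv_mul_cancel_right, mulVec_mul, hψ₂ s hs, Matrix.mulVec_smul]
    rw [hγ, Matrix.mulVec_smul, h1, smul_smul, smul_smul] at h2
    have h3 : (γ * (ψ₁ (φ * s * φ⁻¹) : k) - ψ₂ s * γ) • v = 0 := by
      rw [sub_smul, h2, sub_self]
    have h4 := (smul_eq_zero.1 h3).resolve_right hv
    apply Units.ext
    apply mul_left_cancel₀ hγ0
    rw [mul_comm γ (ψ₂ s : k)]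
    exact sub_eq_zero.1 h4
  have hconj₂ : ∀ s ∈ A.inertiaSubgroupIn ℚ, ψ₂ (φ * s * φ⁻¹) = ψ₁ s := by
    intro s hs
    have h1 := hψ₂ _ (inertia_conj_mem hφ.mem_decompositionSubgroup hs)
    have h2 : (rb (φ * s * φ⁻¹)).mulVec ((rb φ).mulVec v) = (ψ₁ s : k) • (rb φ).mulVec v := by
      rw [← mulVec_mul, inv_mul_cancel_right, mulVec_mul, hψ₁ s hs, Matrix.mulVec_smul]
    rw [hβ, Matrix.mulVec_smul, h1, smul_smul, smul_smul] at h2
    have h3 : (β * (ψ₂ (φ * s * φ⁻¹) : k) - ψ₁ s * β) • u = 0 := by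
      rw [sub_smul, h2, sub_self]
    have h4 := (smul_eq_zero.1 h3).resolve_right hu
    apply Units.ext
    apply mul_left_cancel₀ hβ0
    rw [mul_comm β (ψ₁ s : k)]
    exact sub_eq_zero.1 h4
  refine ⟨v, u, ψ₁, ψ₂, hdt, fun s hs => ⟨hψ₁ s hs, hψ₂ s hs⟩, ⟨s₁, hs₁, fun heq => ?_⟩, hfrob,
    fun s hs => ?_, fun s hs => ?_⟩
  · have h1 := hψ₁ s₁ hs₁
    have h2 := hψ₂ s₁ hs₁
    rw [hva] at h1
    rw [hub, ← heq] at h2
    have h3 : (a - ψ₁ s₁) • v = 0 := by rw [sub_smul, h1, sub_self]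
    have h4 : (b - ψ₁ s₁) • u = 0 := by rw [sub_smul, h2, sub_self]
    have h5 := sub_eq_zero.1 ((smul_eq_zero.1 h3).resolve_right hv)
    have h6 := sub_eq_zero.1 ((smul_eq_zero.1 h4).resolve_right hu)
    exact hab (h5.trans h6.symm)
  · rw [← hconj₁ s hs]
    exact tame_conj P hmul₁ hU hker₁ hφ hs
  · rw [← hconj₂ s hs]
    exact tame_conj P hmul₂ hU hker₂ hφ hs

end

end Fermat.Agent.SSR
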