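import Fermat.Agent.SSR.Lines2

/-!
# The fundamental character on a line
-/

set_option autoImplicit false
set_option linter.unusedSectionVars false

namespace Fermat.Agent.SSR

open Fermat.Agent.TW Fermat.Agent.CC Fermat.Agent.TW.NVal Matrix

section field

variable {k : Type*} [Field k] [Finite k] {p : ℕ} [CharP k p]

/-- the subfield of elements with `a ^ p ^ 2 = a` -/
def fixK (k : Type*) [Field k] (p : ℕ) [Fact p.Prime] [CharP k p] : Subfield k where
  carrier := {a | a ^ p ^ 2 = a}
  mul_mem' {a b} ha hb := by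
    change (a * b) ^ p ^ 2 = a * b
    rw [mul_pow, ha, hb]
  one_mem' := one_pow _
  add_mem' {a b} ha hb := by
    change (a + b) ^ p ^ 2 = a + b
    rw [add_pow_char_pow, ha, hb]
  zero_mem' := zero_pow (pow_ne_zero 2 (Fact.out : p.Prime).ne_zero)
  neg_mem' {a} ha := by
    change (-a) ^ p ^ 2 = -a
    have h := sub_pow_char_pow (n := 2) (p := p) (0 : k) a
    rw [zero_sub, zero_pow (pow_ne_zero 2 (Fact.out : p.Prime).ne_zero), zero_sub] at h
    rw [h]
    exact congrArg _ ha
  inv_mem' a ha := by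
    change (a⁻¹) ^ p ^ 2 = a⁻¹
    rw [inv_pow]
    exact congrArg _ ha

theorem mem_fixK [Fact p.Prime] {a : k} : a ∈ fixK k p ↔ a ^ p ^ 2 = a := Iff.rfl

variable [hp : Fact p.Prime]

theorem card_fixK_le : Nat.card (fixK k p) ≤ p ^ 2 := by
  classical
  have := Fintype.ofFinite k
  have hp2 : 1 < p ^ 2 := Nat.one_lt_pow two_ne_zero hp.out.one_lt
  have h1 : Nat.card (fixK k p) = (Finset.univ.filter fun a : k => a ^ p ^ 2 = a).card := by
    have : Nat.card (fixK k p) = Nat.card {a : k | a ^ p ^ 2 = a} := rfl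
    rw [this, Nat.card_coe_set_eq, Set.ncard_eq_toFinset_card']
    congr 1
    ext a
    simp
  rw [h1]
  have hne : (Polynomial.X ^ p ^ 2 - Polynomial.X : Polynomial k) ≠ 0 :=
    FiniteField.X_pow_card_sub_X_ne_zero k hp2
  have h2 : (Finset.univ.filter fun a : k => a ^ p ^ 2 = a) ⊆
      (Polynomial.X ^ p ^ 2 - Polynomial.X : Polynomial k).roots.toFinset := by
    intro a ha
    rw [Multiset.mem_toFinset, Polynomial.mem_roots hne, Polynomial.IsRoot.def]
    simp [(Finset.mem_filter.1 ha).2]
  refine (Finset.card_le_card h2).trans ((Multiset.toFinset_card_le _).trans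
    ((Polynomial.card_roots' _).trans ?_))
  rw [FiniteField.X_pow_card_sub_X_natDegree_eq k hp2]

/-- a subgroup containing `1` and an element outside the prime field fills the field -/
theorem eq_fixK {S : AddSubgroup k} (hS : ∀ a ∈ S, a ∈ fixK k p) (h1 : (1 : k) ∈ S) {a : k}
    (ha : a ∈ S) (hap : a ^ p ≠ a) : (∀ b ∈ fixK k p, b ∈ S) ∧ Nat.card (fixK k p) = p ^ 2 := by
  classical
  obtain ⟨i, hi⟩ : ∃ i : ZMod p →+* k, i = ZMod.castHom (dvd_refl p) k := ⟨_, rfl⟩
  have hi1 : ∀ n : ZMod p, i n ^ p = i n := fun n => by rw [← map_pow, ZMod.pow_card]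
  have hiv : ∀ n : ZMod p, i n = (n.val : k) := fun n => by
    rw [← map_natCast i, ZMod.natCast_zmod_val]
  have hmem : ∀ n : ZMod p, ∀ b ∈ S, i n * b ∈ S := by
    intro n b hb
    rw [hiv, ← nsmul_eq_mul]
    exact S.nsmul_mem hb _
  let f : ZMod p × ZMod p → S := fun x => ⟨i x.1 * 1 + i x.2 * a,
    S.add_mem (hmem _ _ h1) (hmem _ _ ha)⟩
  have hf : Function.Injective f := by
    rintro ⟨n, m⟩ ⟨n', m'⟩ h
    have h2 : i n * 1 + i m * a = i n' * 1 + i m' * a := congrArg Subtype.val h
    have h3 : (i m - i m') * a = i n' - i n := by linear_combination h2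
    have hinj : Function.Injective i := i.injective
    have hm : m = m' := by
      by_contra hmm
      have h4 : i m - i m' ≠ 0 := sub_ne_zero.2 fun h => hmm (hinj h)
      apply hap
      have h5 : a = i ((n' - n) / (m - m')) := by
        rw [map_div₀, map_sub, map_sub, eq_div_iff h4, ← h3]
        ring
      rw [h5, hi1]
    rw [hm, sub_self, zero_mul] at h3
    have hn : n' = n := hinj (sub_eq_zero.1 h3.symm)
    rw [hm, hn]
  have hc : p ^ 2 ≤ Nat.card S := by
    have h2 := Nat.card_le_card_of_injective f hf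
    rwa [Nat.card_prod, Nat.card_zmod, ← pow_two] at h2
  have hsub : (S : Set k) ⊆ (fixK k p : Set k) := hS
  have h3 : (fixK k p : Set k).ncard ≤ (S : Set k).ncard := by
    rw [← Nat.card_coe_set_eq, ← Nat.card_coe_set_eq]
    exact card_fixK_le.trans hc
  have h4 := Set.eq_of_subset_of_ncard_le hsub h3 (Set.toFinite _)
  refine ⟨fun b hb => ?_, le_antisymm card_fixK_le ?_⟩
  · have : b ∈ (fixK k p : Set k) := hb
    rw [← h4] at this
    exact this
  · refine hc.trans ?_
    have : Nat.card S = Nat.card (fixK k p) := by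
      have h5 : (S : Set k).ncard = (fixK k p : Set k).ncard := by rw [h4]
      rwa [← Nat.card_coe_set_eq, ← Nat.card_coe_set_eq] at h5
    exact this.le

end field

end Fermat.Agent.SSR
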