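import Fermat.Agent.SSR.Tau

/-!
# The distance of the points on the line and the embedding of the coefficient field
-/

set_option autoImplicit false
set_option linter.unusedSectionVars false

namespace Fermat.Agent.SSR

open Fermat.Agent.TW Fermat.Agent.CC Fermat.Agent.TW.NVal Matrix

variable {A : ValuationSubring Qb} {p : ℕ} {w : Qb → ℝ} {k : Type*} [Field k]
  {rb : GQ →* Mt k}

theorem eigen_mul {v : Fin 2 → k} (hv : v ≠ 0) {ψ : GQ → kˣ}
    (hψ : ∀ s ∈ A.inertiaSubgroupIn ℚ, (rb s).mulVec v = (ψ s : k) • v) :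
    ∀ σ ∈ A.inertiaSubgroupIn ℚ, ∀ τ ∈ A.inertiaSubgroupIn ℚ, ψ (σ * τ) = ψ σ * ψ τ := by
  intro σ hσ τ hτ
  have h1 := hψ (σ * τ) (mul_mem hσ hτ)
  rw [mulVec_mul, hψ τ hτ, Matrix.mulVec_smul, hψ σ hσ, smul_smul] at h1
  have h2 : ((ψ τ : k) * ψ σ - ψ (σ * τ)) • v = 0 := by rw [sub_smul, h1, sub_self]
  have h3 := (smul_eq_zero.1 h2).resolve_right hv
  apply Units.ext
  rw [Units.val_mul, mul_comm]
  exact (sub_eq_zero.1 h3).symm

theorem eigen_ker {v : Fin 2 → k} (hv : v ≠ 0) {ψ : GQ → kˣ}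
    (hψ : ∀ s ∈ A.inertiaSubgroupIn ℚ, (rb s).mulVec v = (ψ s : k) • v) :
    ∀ σ ∈ A.inertiaSubgroupIn ℚ, σ ∈ rb.ker → ψ σ = 1 := by
  intro σ hσ hσU
  have h1 := hψ σ hσ
  rw [show rb σ = 1 from hσU, Matrix.one_mulVec] at h1
  have h2 : ((ψ σ : k) - 1) • v = 0 := by rw [sub_smul, one_smul, ← h1, sub_self]
  exact Units.ext (sub_eq_zero.1 ((smul_eq_zero.1 h2).resolve_right hv))

section

variable [Finite k] [CharP k p] [hpf : Fact p.Prime] (P : PL p A w)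
  (hU : IsOpen (rb.ker : Set GQ)) {H : Subalgebra (RI A) ((Fin 2 → k) → Qb)}
  (hH : LH A (actR' A rb) H) {v : Fin 2 → k} (hv : v ≠ 0) {ψ : GQ → kˣ}
  (hψ : ∀ s ∈ A.inertiaSubgroupIn ℚ, (rb s).mulVec v = (ψ s : k) • v)
  (hψ2 : ∀ s ∈ A.inertiaSubgroupIn ℚ, (ψ s ^ p) ^ p = ψ s)
  {s₁ : GQ} (hs₁ : s₁ ∈ A.inertiaSubgroupIn ℚ) (hne : ψ s₁ ^ p ≠ ψ s₁)
  {π : Qb} (hπ : π ^ (p ^ 2 - 1) = p)

theorem not_dvd_sq_sub : ¬ p ∣ p ^ 2 - 1 := by
  intro h
  have h1 : 1 ≤ p ^ 2 := Nat.one_le_pow _ _ hpf.out.pos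
  have h2 : p ∣ p ^ 2 := dvd_pow_self p two_ne_zero
  have h3 : p ∣ 1 := by
    have := Nat.dvd_sub h2 h
    rwa [Nat.sub_sub_self h1] at this
  exact hpf.out.one_lt.ne' (Nat.dvd_one.1 h3)

omit [Finite k] [CharP k p] in
theorem sq_sub_pos : 0 < p ^ 2 - 1 := by
  have := Nat.one_lt_pow two_ne_zero hpf.out.one_lt
  omega

theorem psi_pow {s : GQ} (h : (ψ s ^ p) ^ p = ψ s) : ψ s ^ (p ^ 2 - 1) = 1 := by
  have h1 : ψ s ^ (p ^ 2 - 1) * ψ s = 1 * ψ s := by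
    rw [← pow_succ, Nat.sub_add_cancel (Nat.one_le_pow _ _ hpf.out.pos), one_mul, pow_two,
      pow_mul, h]
  exact mul_right_cancel h1

include P hU hv hψ hψ2 hπ in
theorem psi_Jt {σ : GQ} (hσ : σ ∈ Jt A π) : ψ σ = 1 :=
  char_trivial_of_pow P (eigen_mul hv hψ) hU (eigen_ker hv hψ) not_dvd_sq_sub
    (fun s hs => psi_pow (hψ2 s hs)) hπ hσ

include P hU hH hv hψ hψ2 hs₁ hne hπ

/-- the distance of `v` -/
theorem exists_level : ∃ m : ℕ, 1 ≤ m ∧ m ≤ p + 1 ∧ TD w H (m / ((p ^ 2 - 1 : ℕ) : ℝ)) v ∧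
    ∃ φ ∈ H, Tl A π m φ v ≠ 0 := by
  have hnd : ¬ p ∣ p ^ 2 - 1 := not_dvd_sq_sub
  obtain ⟨U, -, -⟩ := P.uf_tame hnd hπ
  have he0 : (0 : ℝ) < ((p ^ 2 - 1 : ℕ) : ℝ) := Nat.cast_pos.2 sq_sub_pos
  have hp1 : (1 : ℝ) < p := by exact_mod_cast hpf.out.one_lt
  -- `v` is connected
  have hψ1 : (ψ s₁ : k) - 1 ≠ 0 := by
    intro h
    apply hne
    have : ψ s₁ = 1 := Units.ext (sub_eq_zero.1 h)
    rw [this, one_pow]
  have h0 : TDS w H 0 v := by
    have h1 := hH.tds_inertia P ⟨s₁, hs₁⟩ (((ψ s₁ : k) - 1)⁻¹ • v)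
    have h2 : actR' A rb ⟨s₁, hs₁⟩ (((ψ s₁ : k) - 1)⁻¹ • v) - ((ψ s₁ : k) - 1)⁻¹ • v = v := by
      rw [actR'_apply, Matrix.mulVec_smul]
      change ((ψ s₁ : k) - 1)⁻¹ • (rb s₁).mulVec v - _ = v
      rw [hψ s₁ hs₁, smul_smul, ← sub_smul]
      have h3 : ((ψ s₁ : k) - 1)⁻¹ * ψ s₁ - ((ψ s₁ : k) - 1)⁻¹ = 1 := by
        field_simp
      rw [h3, one_smul]
    rwa [h2] at h1
  have hpv : p • v = 0 := by
    funext j
    rw [Pi.smul_apply, nsmul_eq_mul, CharP.cast_eq_zero, zero_mul]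
    rfl
  obtain ⟨r, hr, φ, hφ, hφne, hφr⟩ := hH.exists_td P hv
  have hr0 : 0 < r := by
    have := (h0 φ hφ).resolve_left (sub_ne_zero.2 hφne)
    rwa [hφr] at this
  have hfix : ∀ σ (hσ : σ ∈ Jt A π), actR' A rb ⟨σ, U.le hσ⟩ v = v := by
    intro σ hσ
    rw [actR'_apply]
    change (rb σ).mulVec v = v
    rw [hψ σ hσ.1, psi_Jt P hU hv hψ hψ2 hπ hσ, Units.val_one, one_smul]
  obtain ⟨n, hn⟩ := U.val _ (sub_ne_zero.2 hφne) (hH.fix_sub P U.le hfix hφ)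
  rw [hφr] at hn
  have hn0 : 0 < n := by
    rw [hn] at hr0
    have := (div_pos_iff_of_pos_right he0).1 hr0
    exact_mod_cast this
  obtain ⟨m, rfl⟩ := Int.eq_ofNat_of_zero_le hn0.le
  have hr1 : r ≤ 1 / ((p : ℝ) - 1) := by
    by_contra hcon
    push Not at hcon
    exact hv (hH.eq_zero P hpv (hr.tds hcon))
  have hrm : r = m / ((p ^ 2 - 1 : ℕ) : ℝ) := by rw [hn]; simp
  refine ⟨m, by omega, ?_, by rw [← hrm]; exact hr, φ, hφ, ?_⟩
  · rw [hrm, div_le_div_iff₀ he0 (by linarith), one_mul] at hr1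
    have h1 : ((p ^ 2 - 1 : ℕ) : ℝ) = ((p : ℝ) + 1) * (p - 1) := by
      rw [Nat.cast_sub (Nat.one_le_pow _ _ hpf.out.pos)]
      push_cast
      ring
    rw [h1] at hr1
    have h2 : (m : ℝ) ≤ p + 1 := le_of_mul_le_mul_right hr1 (by linarith)
    exact_mod_cast h2
  · intro hTl
    have hwπ : w π = 1 / ((p ^ 2 - 1 : ℕ) : ℝ) := P.tame_w hnd hπ
    have hbl := (by rw [← hrm]; exact hr : TD w H (m / ((p ^ 2 - 1 : ℕ) : ℝ)) v).bl_lead
      hH P U.ne hwπ hφ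
    have h1 := (P.rsd_eq_zero_iff hbl).1 hTl
    rcases h1 with h1 | h1
    · exact (div_ne_zero (sub_ne_zero.2 hφne) (pow_ne_zero m U.ne)) h1
    · rw [P.nv.w_div (sub_ne_zero.2 hφne) (pow_ne_zero m U.ne),
        w_pi_pow (e := p ^ 2 - 1) P U.ne hwπ, hφr, hrm, sub_self] at h1
      exact lt_irrefl _ h1

/-- **the embedding of the coefficient field** -/
theorem exists_tau : ∃ m : ℕ, 1 ≤ m ∧ m ≤ p + 1 ∧ Nat.card (fixK k p) = p ^ 2 ∧
    ∃ (τ : fixK k p →+* IsLocalRing.ResidueField A)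
      (hal : ∀ s ∈ A.inertiaSubgroupIn ℚ, (ψ s : k) ∈ fixK k p),
      ∀ s (hs : s ∈ A.inertiaSubgroupIn ℚ), τ ⟨ψ s, hal s hs⟩ = rsd A (s π / π) ^ m := by
  have hnd : ¬ p ∣ p ^ 2 - 1 := not_dvd_sq_sub
  obtain ⟨U, -, -⟩ := P.uf_tame hnd hπ
  have hwπ : w π = 1 / ((p ^ 2 - 1 : ℕ) : ℝ) := P.tame_w hnd hπ
  have he : 0 < p ^ 2 - 1 := sq_sub_pos
  obtain ⟨m, hm1, hm2, hTD, φ, hφ, hTl⟩ := exists_level P hU hH hv hψ hψ2 hs₁ hne hπ
  have hm : 0 < m := hm1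
  have hal : ∀ s ∈ A.inertiaSubgroupIn ℚ, (ψ s : k) ∈ fixK k p := by
    intro s hs
    rw [mem_fixK, pow_two, pow_mul]
    have := congrArg (Units.val) (hψ2 s hs)
    rwa [Units.val_pow_eq_pow_val, Units.val_pow_eq_pow_val] at this
  obtain ⟨S, hS⟩ : ∃ S, S = AddSubgroup.closure
      {a : k | ∃ s ∈ A.inertiaSubgroupIn ℚ, a = ψ s} := ⟨_, rfl⟩
  have hSK : ∀ a ∈ S, a ∈ fixK k p := by
    have : S ≤ (fixK k p).toSubring.toAddSubgroup := by
      rw [hS, AddSubgroup.closure_le]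
      rintro a ⟨s, hs, rfl⟩
      exact hal s hs
    exact this
  have hmul := eigen_mul hv hψ
  have h1S : (1 : k) ∈ S := by
    rw [hS]
    refine AddSubgroup.subset_closure ⟨1, one_mem _, ?_⟩
    have h1 := hmul 1 (one_mem _) 1 (one_mem _)
    rw [one_mul, left_eq_mul] at h1
    rw [h1, Units.val_one]
  have hs₁S : (ψ s₁ : k) ∈ S := by
    rw [hS]
    exact AddSubgroup.subset_closure ⟨s₁, hs₁, rfl⟩
  have hs₁p : (ψ s₁ : k) ^ p ≠ ψ s₁ := by
    intro h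
    apply hne
    apply Units.ext
    rwa [Units.val_pow_eq_pow_val]
  obtain ⟨hKS, hcard⟩ := eq_fixK hSK h1S hs₁S hs₁p
  -- the leading coefficients
  have hact : ∀ s (hs : s ∈ A.inertiaSubgroupIn ℚ) (a : k),
      actR' A rb ⟨s, hs⟩ (a • v) = ((ψ s : k) * a) • v := by
    intro s hs a
    rw [actR'_apply, Matrix.mulVec_smul]
    change a • (rb s).mulVec v = _
    rw [hψ s hs, smul_smul, mul_comm]
  have hTDS : ∀ a ∈ S, TD w H (m / ((p ^ 2 - 1 : ℕ) : ℝ)) (a • v) := by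
    intro a ha
    rw [hS] at ha
    induction ha using AddSubgroup.closure_induction with
    | mem a ha =>
      obtain ⟨s, hs, rfl⟩ := ha
      have h1 := hH.act_td P ⟨s, hs⟩ hTD
      have h2 := hact s hs 1
      rw [one_smul, mul_one] at h2
      rwa [h2] at h1
    | zero => rw [zero_smul]; exact TD_zero _
    | add a b _ _ ha hb => rw [add_smul]; exact ha.add hH P hb
    | neg a _ ha => rw [neg_smul]; exact ha.neg hH P
  have hadd : ∀ a ∈ S, ∀ b ∈ S, Tl A π m φ ((a + b) • v) =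
      Tl A π m φ (a • v) + Tl A π m φ (b • v) := by
    intro a ha b hb
    rw [add_smul]
    exact Tl_add hH P U.ne hwπ he hm (hTDS a ha) (hTDS b hb) hφ
  have hzero : Tl A π m φ ((0 : k) • v) = 0 := by
    have h1 := hadd 0 S.zero_mem 0 S.zero_mem
    rw [add_zero] at h1
    exact left_eq_add.1 h1
  have hneg : ∀ a ∈ S, Tl A π m φ ((-a) • v) = - Tl A π m φ (a • v) := by
    intro a ha
    have h1 := hadd a ha (-a) (S.neg_mem ha)
    rw [add_neg_cancel, hzero] at h1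
    linear_combination -h1
  have hchar : ∀ s (hs : s ∈ A.inertiaSubgroupIn ℚ), ∀ a ∈ S,
      Tl A π m φ (((ψ s : k) * a) • v) = rsd A (s π / π) ^ m * Tl A π m φ (a • v) := by
    intro s hs a ha
    rw [← hact s hs a]
    exact Tl_act hH P U.ne hwπ (hTDS a ha) hφ ⟨s, hs⟩
  have hSmul : ∀ a ∈ S, ∀ b ∈ S, a * b ∈ S := fun a ha b hb =>
    hKS _ ((fixK k p).mul_mem (hSK a ha) (hSK b hb))
  have hmult : ∀ b ∈ S, ∀ a ∈ S, Tl A π m φ ((b * a) • v) * Tl A π m φ v =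
      Tl A π m φ (b • v) * Tl A π m φ (a • v) := by
    intro b hb
    have hb' := hb
    rw [hS] at hb
    induction hb using AddSubgroup.closure_induction with
    | mem b hbs =>
      obtain ⟨s, hs, rfl⟩ := hbs
      intro a ha
      have h1 := hchar s hs 1 h1S
      rw [mul_one, one_smul] at h1
      rw [hchar s hs a ha, h1]
      ring
    | zero =>
      intro a _
      rw [zero_mul, hzero, zero_mul, zero_mul]
    | add b c hb hc ihb ihc =>
      rw [← hS] at hb hc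
      intro a ha
      rw [add_mul, hadd _ (hSmul b hb a ha) _ (hSmul c hc a ha), add_mul, ihb hb a ha,
        ihc hc a ha, hadd b hb c hc, add_mul]
    | neg b hb ihb =>
      rw [← hS] at hb
      intro a ha
      rw [neg_mul, hneg _ (hSmul b hb a ha), neg_mul, ihb hb a ha, hneg b hb, neg_mul]
  have h1v : Tl A π m φ ((1 : k) • v) = Tl A π m φ v := by rw [one_smul]
  let τ : fixK k p →+* IsLocalRing.ResidueField A :=
    { toFun := fun a => Tl A π m φ ((a : k) • v) / Tl A π m φ v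
      map_one' := by
        change Tl A π m φ ((1 : k) • v) / Tl A π m φ v = 1
        rw [h1v, div_self hTl]
      map_mul' := fun a b => by
        change Tl A π m φ (((a : k) * b) • v) / Tl A π m φ v = _
        have h1 := hmult a (hKS _ a.2) b (hKS _ b.2)
        rw [div_mul_div_comm, ← h1, mul_div_mul_right _ _ hTl]
      map_zero' := by
        change Tl A π m φ ((0 : k) • v) / Tl A π m φ v = 0
        rw [hzero, zero_div]
      map_add' := fun a b => by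
        change Tl A π m φ (((a : k) + b) • v) / Tl A π m φ v = _
        rw [hadd a (hKS _ a.2) b (hKS _ b.2), add_div] }
  refine ⟨m, hm1, hm2, hcard, τ, hal, fun s hs => ?_⟩
  change Tl A π m φ ((ψ s : k) • v) / Tl A π m φ v = _
  have h1 := hchar s hs 1 h1S
  rw [mul_one, one_smul] at h1
  rw [h1, mul_div_cancel_right₀ _ hTl]

end

end Fermat.Agent.SSR
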